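import Fermat.Agent.S29.H201.PeTensor

/-!
# S29 layer M, piece E2 (helper201): `heckeHom` preserves "pe" homomorphisms (cycle argument)
-/

set_option autoImplicit false
set_option linter.style.haveILetI false

open CongruenceSubgroup Matrix.SpecialLinearGroup ModularCurve ModularCurve.Period
open MulAction Function
open scoped MatrixGroups
open P2MW.S_ModularForm_heckeT_slash_eq_self_of_mem_Gamma0.ModularForm.HeckeSlashInvariance

namespace Fermat.Agent.S29.H201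

/-- Orbit decomposition of a sum: if the sum of `f` over every cycle of `σ` vanishes, then the
total sum of `f` vanishes. -/
theorem sum_eq_zero_of_cycle_sums {X : Type*} [Fintype X] {A : Type*} [AddCommGroup A]
    (σ : Equiv.Perm X) (f : X → A)
    (h : ∀ x, ∑ k ∈ Finset.range (minimalPeriod σ x), f ((σ ^ k) x) = 0) :
    ∑ x, f x = 0 := by
  classical
  let G := Subgroup.zpowers σ
  letI : Fintype (orbitRel.Quotient G X) := Fintype.ofFinite _
  letI : ∀ ω : orbitRel.Quotient G X, Fintype (orbit G ω.out) := fun ω => Fintype.ofFinite _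
  rw [← Equiv.sum_comp (selfEquivSigmaOrbits G X).symm f, Fintype.sum_sigma]
  refine Finset.sum_eq_zero fun ω _ => ?_
  set b : X := ω.out with hb
  have hper : minimalPeriod (σ • ·) b = minimalPeriod σ b := rfl
  haveI : NeZero (minimalPeriod (σ • ·) b) := MulAction.minimalPeriod_pos σ b
  have key : ∑ y : orbit G b, f (y : X)
      = ∑ k : ZMod (minimalPeriod (σ • ·) b), f ((σ ^ k.val) b) := by
    refine Fintype.sum_equiv (orbitZPowersEquiv σ b) _ _ fun y => ?_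
    obtain ⟨k, rfl⟩ := (orbitZPowersEquiv σ b).symm.surjective y
    rw [Equiv.apply_symm_apply, orbitZPowersEquiv_symm_apply]
    congr 1
    show ((⟨σ, Subgroup.mem_zpowers σ⟩ : Subgroup.zpowers σ) ^ (ZMod.cast k : ℤ)) • b = _
    rw [← ZMod.natCast_val, zpow_natCast]
    rfl
  have h2 : (∑ y : orbit G ω.out, f ((selfEquivSigmaOrbits G X).symm ⟨ω, y⟩))
      = ∑ y : orbit G b, f (y : X) := by
    refine Finset.sum_congr rfl fun y _ => ?_
    rfl
  rw [h2, key, ← sum_range_eq_sum_zmod (fun k => f ((σ ^ k) b)), hper]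
  exact h b

variable {N : ℕ} {ℓ : ℕ} [Fact ℓ.Prime]

theorem permOf_mul (γ γ' : Gamma0 N) :
    (permOf (γ * γ') : Equiv.Perm (OnePoint (ZMod ℓ))) = permOf γ' * permOf γ := by
  ext x
  rw [Equiv.Perm.mul_apply, permOf_apply, permOf_apply, permOf_apply, Subgroup.coe_mul,
    redMatrix_mul, mul_smul]

theorem permOf_one : (permOf (1 : Gamma0 N) : Equiv.Perm (OnePoint (ZMod ℓ))) = 1 := by
  ext x
  rw [permOf_apply, Subgroup.coe_one, redMatrix_one, one_smul]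
  rfl

theorem permOf_pow (γ : Gamma0 N) (n : ℕ) :
    (permOf (γ ^ n) : Equiv.Perm (OnePoint (ZMod ℓ))) = permOf γ ^ n := by
  induction n with
  | zero => rw [pow_zero, pow_zero, permOf_one]
  | succ n ih => rw [pow_succ, permOf_mul, ih, pow_succ']

theorem trf_pow_succ (hℓN : ¬ ℓ ∣ N) (γ : Gamma0 N) (n : ℕ) (x : OnePoint (ZMod ℓ)) :
    trf hℓN (γ ^ (n + 1)) x = trf hℓN (γ ^ n) x * trf hℓN γ ((permOf γ ^ n) x) := by
  rw [pow_succ, trf_mul, ← permOf_apply, permOf_pow]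

/-- the cocycle sum along a `σ`-orbit segment -/
theorem sum_range_trf (hℓN : ¬ ℓ ∣ N) {A : Type*} [AddCommGroup A]
    (χ : Additive (Gamma0 N) →+ A) (γ : Gamma0 N) (x : OnePoint (ZMod ℓ)) (n : ℕ) :
    ∑ k ∈ Finset.range n, χ (Additive.ofMul (trf hℓN γ ((permOf γ ^ k) x)))
      = χ (Additive.ofMul (trf hℓN (γ ^ n) x)) := by
  induction n with
  | zero => simp [trf_one]
  | succ n ih =>
    rw [Finset.sum_range_succ, ih, trf_pow_succ, ofMul_mul, map_add]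

/-- if `x` is fixed by `γ`, then `trf γ x` is conjugate to `γ` in `GL₂(ℝ)` -/
theorem trf_fixed_spec (hℓN : ¬ ℓ ∣ N) (γ : Gamma0 N) (x : OnePoint (ZMod ℓ))
    (hx : permOf γ x = x) :
    heckeRep ℓ x * mapGL ℝ (γ : SL(2, ℤ))
      = mapGL ℝ ((trf hℓN γ x : Gamma0 N) : SL(2, ℤ)) * heckeRep ℓ x := by
  have h := trf_spec hℓN γ x
  rw [← permOf_apply, hx] at h
  exact h

theorem trf_fixed_pow (hℓN : ¬ ℓ ∣ N) (γ : Gamma0 N) (x : OnePoint (ZMod ℓ))
    (hx : permOf γ x = x) (n : ℕ) : trf hℓN (γ ^ n) x = trf hℓN γ x ^ n := by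
  induction n with
  | zero => rw [pow_zero, pow_zero, trf_one]
  | succ n ih =>
    rw [trf_pow_succ, ih, pow_succ]
    congr 2
    have : ∀ k : ℕ, (permOf γ ^ k) x = x := by
      intro k
      induction k with
      | zero => rfl
      | succ k ihk => rw [pow_succ, Equiv.Perm.mul_apply, hx, ihk]
    exact this n

theorem trace_trf_fixed (hℓN : ¬ ℓ ∣ N) (γ : Gamma0 N) (x : OnePoint (ZMod ℓ))
    (hx : permOf γ x = x) :
    (((trf hℓN γ x : Gamma0 N) : SL(2, ℤ)) : Matrix (Fin 2) (Fin 2) ℤ).trace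
      = ((γ : SL(2, ℤ)) : Matrix (Fin 2) (Fin 2) ℤ).trace := by
  have h := trf_fixed_spec hℓN γ x hx
  have h1 : mapGL ℝ ((trf hℓN γ x : Gamma0 N) : SL(2, ℤ))
      = heckeRep ℓ x * mapGL ℝ (γ : SL(2, ℤ)) * (heckeRep ℓ x)⁻¹ := by
    rw [h, mul_inv_cancel_right]
  have h2 : ((mapGL ℝ ((trf hℓN γ x : Gamma0 N) : SL(2, ℤ)) : GL (Fin 2) ℝ) :
        Matrix (Fin 2) (Fin 2) ℝ).trace
      = ((mapGL ℝ (γ : SL(2, ℤ)) : GL (Fin 2) ℝ) : Matrix (Fin 2) (Fin 2) ℝ).trace := by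
    rw [h1, Matrix.GeneralLinearGroup.coe_mul, Matrix.trace_mul_comm,
      ← Matrix.GeneralLinearGroup.coe_mul, inv_mul_cancel_left]
  have h3 : ∀ g : SL(2, ℤ), ((mapGL ℝ g : GL (Fin 2) ℝ) : Matrix (Fin 2) (Fin 2) ℝ).trace
      = (((g : Matrix (Fin 2) (Fin 2) ℤ).trace : ℤ) : ℝ) := by
    intro g
    simp [Matrix.trace_fin_two]
  rw [h3, h3] at h2
  exact_mod_cast h2

/-- Cayley–Hamilton in `SL(2, ℤ)`: the trace recurrence. -/
theorem trace_pow_add_two (g : SL(2, ℤ)) (n : ℕ) :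
    ((g ^ (n + 2) : SL(2, ℤ)) : Matrix (Fin 2) (Fin 2) ℤ).trace
      = (g : Matrix (Fin 2) (Fin 2) ℤ).trace * ((g ^ (n + 1) : SL(2, ℤ)) : Matrix (Fin 2) (Fin 2) ℤ).trace
        - ((g ^ n : SL(2, ℤ)) : Matrix (Fin 2) (Fin 2) ℤ).trace := by
  have hdet : (g : Matrix (Fin 2) (Fin 2) ℤ) 0 0 * (g : Matrix (Fin 2) (Fin 2) ℤ) 1 1
      - (g : Matrix (Fin 2) (Fin 2) ℤ) 0 1 * (g : Matrix (Fin 2) (Fin 2) ℤ) 1 0 = 1 := by
    have := g.det_coe
    rwa [Matrix.det_fin_two] at this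
  have h1 : ((g ^ (n + 1) : SL(2, ℤ)) : Matrix (Fin 2) (Fin 2) ℤ)
      = ((g ^ n : SL(2, ℤ)) : Matrix (Fin 2) (Fin 2) ℤ) * (g : Matrix (Fin 2) (Fin 2) ℤ) := by
    rw [pow_succ, Matrix.SpecialLinearGroup.coe_mul]
  have h2 : ((g ^ (n + 2) : SL(2, ℤ)) : Matrix (Fin 2) (Fin 2) ℤ)
      = ((g ^ n : SL(2, ℤ)) : Matrix (Fin 2) (Fin 2) ℤ) * (g : Matrix (Fin 2) (Fin 2) ℤ)
        * (g : Matrix (Fin 2) (Fin 2) ℤ) := by
    rw [pow_succ, Matrix.SpecialLinearGroup.coe_mul, h1]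
  rw [h2, h1]
  generalize ((g ^ n : SL(2, ℤ)) : Matrix (Fin 2) (Fin 2) ℤ) = P
  simp only [Matrix.trace_fin_two, Matrix.mul_apply, Fin.sum_univ_two]
  linear_combination (-(P 0 0) - P 1 1) * hdet

theorem trace_pow_sq_eq_four (g : SL(2, ℤ))
    (hg : (g : Matrix (Fin 2) (Fin 2) ℤ).trace ^ 2 = 4) (n : ℕ) :
    ((g ^ n : SL(2, ℤ)) : Matrix (Fin 2) (Fin 2) ℤ).trace ^ 2 = 4 := by
  set t := (g : Matrix (Fin 2) (Fin 2) ℤ).trace with ht
  have key : ∀ n : ℕ, ((g ^ n : SL(2, ℤ)) : Matrix (Fin 2) (Fin 2) ℤ).trace ^ 2 = 4 ∧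
      ((g ^ (n + 1) : SL(2, ℤ)) : Matrix (Fin 2) (Fin 2) ℤ).trace
        * 2 = t * ((g ^ n : SL(2, ℤ)) : Matrix (Fin 2) (Fin 2) ℤ).trace := by
    intro n
    induction n with
    | zero =>
      refine ⟨by simp [Matrix.trace_fin_two], ?_⟩
      simp [Matrix.trace_fin_two, ht]
    | succ n ih =>
      obtain ⟨h1, h2⟩ := ih
      have h3 := trace_pow_add_two g n
      set s0 := ((g ^ n : SL(2, ℤ)) : Matrix (Fin 2) (Fin 2) ℤ).trace
      set s1 := ((g ^ (n + 1) : SL(2, ℤ)) : Matrix (Fin 2) (Fin 2) ℤ).trace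
      set s2 := ((g ^ (n + 2) : SL(2, ℤ)) : Matrix (Fin 2) (Fin 2) ℤ).trace
      have h4 : (s1 * 2) ^ 2 = (t * s0) ^ 2 := by rw [h2]
      have h5 : s1 ^ 2 = 4 := by nlinarith [h4, h1, hg]
      refine ⟨h5, ?_⟩
      show s2 * 2 = t * s1
      rw [h3]
      have h6 : t * (s1 * 2) = t * (t * s0) := by rw [h2]
      nlinarith [h6, hg, h1, h5]
  exact (key n).1

/-- (A) cycle argument: `heckeHom` preserves "pe". -/
theorem heckeHom_mem_pe (hℓN : ¬ ℓ ∣ N) {A : Type*} [AddCommGroup A]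
    {χ : Additive (Gamma0 N) →+ A} (hχ : IsPe χ) : IsPe (heckeHom ℓ hℓN A χ) := by
  have main : ∀ γ : Gamma0 N,
      (∀ (n : ℕ) (x : OnePoint (ZMod ℓ)), permOf (γ ^ n) x = x →
        χ (Additive.ofMul (trf hℓN (γ ^ n) x)) = 0) →
      heckeHom ℓ hℓN A χ (Additive.ofMul γ) = 0 := by
    intro γ hγ
    rw [heckeHom_apply]
    refine sum_eq_zero_of_cycle_sums (permOf γ) _ fun x => ?_
    rw [sum_range_trf hℓN χ γ x]
    apply hγ
    rw [permOf_pow, ← Equiv.Perm.iterate_eq_pow]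
    exact Function.iterate_minimalPeriod
  refine ⟨fun γ hγ => main γ fun n x hx => ?_, fun γ hγ => main γ fun n x hx => ?_⟩
  · apply hχ.1
    rw [trace_trf_fixed hℓN (γ ^ n) x hx, Subgroup.coe_pow]
    exact trace_pow_sq_eq_four _ hγ n
  · apply hχ.2
    have h1 : IsOfFinOrder (γ ^ n) := hγ.pow
    obtain ⟨k, hk, hγk⟩ := h1.exists_pow_eq_one
    rw [isOfFinOrder_iff_pow_eq_one]
    refine ⟨k, hk, ?_⟩
    rw [← trf_fixed_pow hℓN (γ ^ n) x hx k, hγk, trf_one]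

end Fermat.Agent.S29.H201
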