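import Mathlib
import Fermat.Prelude.Def_ModularForm_HeckeOperatorForms
import Fermat.Prelude.Def_FLTPrelim_Modularity
import Fermat.Prelude.Thm_UpperHalfPlane_qCoeff_heckeT
import Fermat.Prelude.Thm_UpperHalfPlane_eq_of_forall_qCoeff_eq
import Fermat.Prelude.Thm_CongruenceSubgroup_one_mem_strictPeriods_Gamma0

/-!
# S29 / P5-E2 (helper201) — a normalized eigenform (Prelude sense: multiplicative
`q`-coefficients) is an eigenvector of `T_p`, `p ∤ N`, with eigenvalue `a_p`.
-/

set_option autoImplicit false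

open CongruenceSubgroup UpperHalfPlane
open scoped MatrixGroups

namespace Fermat.Agent.S29.H201

variable {N : ℕ} {p : ℕ}

theorem periodic_cuspForm (f : CuspForm (Gamma0 N) 2) :
    Function.Periodic ((f : ℍ → ℂ) ∘ UpperHalfPlane.ofComplex) 1 := by
  have h := SlashInvariantFormClass.periodic_comp_ofComplex f
    (CongruenceSubgroup.one_mem_strictPeriods_Gamma0 N)
  exact_mod_cast h

theorem bdd_cuspForm (f : CuspForm (Gamma0 N) 2) :
    UpperHalfPlane.IsBoundedAtImInfty (f : ℍ → ℂ) :=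
  haveI : Fact (IsCusp OnePoint.infty
      (Subgroup.map (Matrix.SpecialLinearGroup.mapGL ℝ) (Gamma0 N))) :=
    ⟨Subgroup.isCusp_of_mem_strictPeriods one_pos
      (CongruenceSubgroup.one_mem_strictPeriods_Gamma0 N)⟩
  ModularFormClass.bdd_at_infty f

theorem qCoeff_zero_cuspForm (f : CuspForm (Gamma0 N) 2) :
    ModularFormClass.qCoeff (f : ℍ → ℂ) 0 = 0 :=
  CuspFormClass.qExpansion_coeff_zero f one_pos (CongruenceSubgroup.one_mem_strictPeriods_Gamma0 N)

theorem qCoeff_smul_cuspForm (c : ℂ) (f : CuspForm (Gamma0 N) 2) (n : ℕ) :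
    ModularFormClass.qCoeff (c • (f : ℍ → ℂ)) n = c * ModularFormClass.qCoeff (f : ℍ → ℂ) n := by
  unfold ModularFormClass.qCoeff
  rw [qExpansion_smul (ModularFormClass.analyticAt_cuspFunction_zero f one_pos
    (CongruenceSubgroup.one_mem_strictPeriods_Gamma0 N))]
  simp

/-- The Hecke relation on `q`-coefficients of a normalized eigenform. -/
theorem coeffHeckeT_eq_mul {g : CuspForm (Gamma0 N) 2}
    (hg : g.IsNormalizedEigenform) (hp : p.Prime) (hpN : ¬ p ∣ N) (n : ℕ) :
    ModularForm.coeffHeckeT 2 p (ModularFormClass.qCoeff g) n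
      = ModularFormClass.qCoeff g p * ModularFormClass.qCoeff g n := by
  have hpow : ((p : ℂ) ^ ((2 : ℤ) - 1)) = p := by norm_num
  rcases Nat.eq_zero_or_pos n with rfl | hn
  · rw [ModularForm.coeffHeckeT_of_dvd 2 (dvd_zero p)]
    simp [qCoeff_zero_cuspForm g]
  obtain ⟨r, m, hm, rfl⟩ := Nat.exists_eq_pow_mul_and_not_dvd hn.ne' p hp.ne_one
  have hcop : ∀ j : ℕ, (p ^ j).Coprime m := fun j =>
    Nat.Coprime.pow_left j ((Nat.Prime.coprime_iff_not_dvd hp).mpr hm)
  cases r with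
  | zero =>
    rw [pow_zero, one_mul, ModularForm.coeffHeckeT_of_not_dvd 2 hm, mul_comm m p,
      hg.qCoeff_mul_of_coprime p m (by simpa using hcop 1)]
  | succ r =>
    have hdvd : p ∣ p ^ (r + 1) * m := Dvd.dvd.mul_right (dvd_pow_self p (Nat.succ_ne_zero r)) m
    rw [ModularForm.coeffHeckeT_of_dvd 2 hdvd, hpow]
    have h1 : p ^ (r + 1) * m * p = p ^ (r + 2) * m := by ring
    have h2 : p ^ (r + 1) * m / p = p ^ r * m := by
      rw [pow_succ, mul_assoc, mul_comm p m, ← mul_assoc]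
      exact Nat.mul_div_cancel _ hp.pos
    rw [h1, h2, hg.qCoeff_mul_of_coprime _ _ (hcop (r + 2)),
      hg.qCoeff_mul_of_coprime _ _ (hcop r), hg.qCoeff_mul_of_coprime _ _ (hcop (r + 1)),
      hg.qCoeff_prime_pow_of_not_dvd p r hp hpN]
    ring

/-- **E2b** -/
theorem heckeTLin_eq_smul_of_isNormalizedEigenform {g : CuspForm (Gamma0 N) 2}
    (hg : g.IsNormalizedEigenform) (hp : p.Prime) (hpN : ¬ p ∣ N) :
    CuspForm.heckeTLin 2 hp hpN g = ModularFormClass.qCoeff g p • g := by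
  apply DFunLike.coe_injective
  have hL := periodic_cuspForm (CuspForm.heckeTLin 2 hp hpN g)
  have hR := periodic_cuspForm (ModularFormClass.qCoeff g p • g)
  refine UpperHalfPlane.eq_of_forall_qCoeff_eq hL
    (CuspFormClass.holo (CuspForm.heckeTLin 2 hp hpN g))
    (bdd_cuspForm _) hR (CuspFormClass.holo (ModularFormClass.qCoeff g p • g))
    (bdd_cuspForm _) ?_
  intro n
  rw [CuspForm.coe_heckeTLin_apply,
    UpperHalfPlane.qCoeff_heckeT (periodic_cuspForm g) (CuspFormClass.holo g) (bdd_cuspForm g) 2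
      hp.ne_zero n, coeffHeckeT_eq_mul hg hp hpN n]
  have : (⇑(ModularFormClass.qCoeff (⇑g) p • g) : ℍ → ℂ)
      = ModularFormClass.qCoeff (⇑g) p • (g : ℍ → ℂ) := rfl
  rw [this, qCoeff_smul_cuspForm]

end Fermat.Agent.S29.H201
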