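import Mathlib

/-!
# S29 / P5-E2 (helper201) — algebra: a finitely generated subgroup `L ≠ 0` of `ℂ`,
its multipliers are algebraic integers, and for every ring hom `ψ : ℤ̄ → F` (`F` a field of
characteristic `q > 0`) there is a nonzero additive `μ : L → F` with `μ (a x) = ψ a * μ x` for
all multipliers `a` (Nakayama).
-/

set_option autoImplicit false

namespace Fermat.Agent.S29.H201

/-- multipliers of a nonzero f.g. subgroup of `ℂ` are algebraic integers -/
theorem isIntegral_of_mul_mem (L : AddSubgroup ℂ) (hL : L.FG) (hL0 : L ≠ ⊥) (a : ℂ)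
    (ha : ∀ x ∈ L, a * x ∈ L) : IsIntegral ℤ a := by
  refine isIntegral_of_smul_mem_submodule (R := ℤ) (A := ℂ) (M := ℂ)
    (AddSubgroup.toIntSubmodule L) ?_ ?_ a ?_
  · intro h
    apply hL0
    have := congrArg Submodule.toAddSubgroup h
    simpa using this
  · rw [Submodule.fg_iff_addSubgroup_fg]
    simpa using hL
  · intro n hn
    exact ha n hn

/-- The multiplier ring of a subgroup of `ℂ`. -/
def multRing (L : AddSubgroup ℂ) : Subring ℂ where
  carrier := {a | ∀ x ∈ L, a * x ∈ L}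
  mul_mem' := fun {a b} ha hb x hx => by rw [mul_assoc]; exact ha _ (hb _ hx)
  one_mem' := fun x hx => by rwa [one_mul]
  add_mem' := fun {a b} ha hb x hx => by rw [add_mul]; exact L.add_mem (ha _ hx) (hb _ hx)
  zero_mem' := fun x _ => by rw [zero_mul]; exact L.zero_mem
  neg_mem' := fun {a} ha x hx => by rw [neg_mul]; exact L.neg_mem (ha _ hx)

theorem mem_multRing {L : AddSubgroup ℂ} {a : ℂ} : a ∈ multRing L ↔ ∀ x ∈ L, a * x ∈ L := Iff.rfl

/-- `L` as a module over its multiplier ring. -/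
def multModule (L : AddSubgroup ℂ) : Submodule (multRing L) ℂ where
  carrier := L
  add_mem' := L.add_mem
  zero_mem' := L.zero_mem
  smul_mem' := fun a _ hx => a.2 _ hx

theorem mem_multModule {L : AddSubgroup ℂ} {x : ℂ} : x ∈ multModule L ↔ x ∈ L := Iff.rfl

/-- **E2-alg** (Nakayama) -/
theorem exists_eigen_functional (L : AddSubgroup ℂ) (hL : L.FG) (hL0 : L ≠ ⊥)
    {F : Type*} [Field F] (q : ℕ) [Fact q.Prime] [CharP F q]
    (ψ : integralClosure ℤ ℂ →+* F) :
    ∃ μ : L →+ F, μ ≠ 0 ∧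
      ∀ a : integralClosure ℤ ℂ, ∀ ha : (∀ y ∈ L, (a : ℂ) * y ∈ L), ∀ x : L,
        μ ⟨(a : ℂ) * (x : ℂ), ha x x.2⟩ = ψ a * μ x := by
  -- the multiplier ring and its character
  set R := multRing L with hR
  have hint : ∀ a : R, (a : ℂ) ∈ integralClosure ℤ ℂ := fun a =>
    isIntegral_of_mul_mem L hL hL0 a a.2
  let ι : R →+* integralClosure ℤ ℂ := (R.subtype).codRestrict (integralClosure ℤ ℂ) hint
  let ψ' : R →+* F := ψ.comp ι
  set m : Ideal R := RingHom.ker ψ' with hm
  haveI hprime : m.IsPrime := RingHom.ker_isPrime ψ'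
  -- `R` is integral over `ℤ`
  haveI hRint : Algebra.IsIntegral ℤ R := by
    refine ⟨fun a => ?_⟩
    have h1 : IsIntegral ℤ (a : ℂ) := hint a
    obtain ⟨P, hP, hPa⟩ := h1
    refine ⟨P, hP, ?_⟩
    apply Subtype.ext
    have : ((Polynomial.eval₂ (algebraMap ℤ R) a P : R) : ℂ)
        = Polynomial.eval₂ (algebraMap ℤ ℂ) (a : ℂ) P := by
      rw [← Polynomial.aeval_def, ← Polynomial.aeval_def]
      exact (Polynomial.aeval_algHom_apply (R.subtype.toIntAlgHom) a P).symm ▸ rfl
    rw [this, hPa]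
    rfl
  -- `m` is maximal
  haveI hmax : m.IsMaximal := by
    refine Ideal.isMaximal_of_isIntegral_of_isMaximal_comap (R := ℤ) m ?_
    have hq : ((q : ℤ) : R) ∈ m := by
      rw [hm, RingHom.mem_ker, map_intCast]
      exact_mod_cast CharP.cast_eq_zero F q
    have hne : m.comap (algebraMap ℤ R) ≠ ⊥ := by
      intro h
      have h1 : (q : ℤ) ∈ m.comap (algebraMap ℤ R) := by
        rw [Ideal.mem_comap]
        exact hq
      rw [h, Ideal.mem_bot] at h1
      exact (Fact.out : q.Prime).ne_zero (by exact_mod_cast h1)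
    exact Ideal.IsPrime.isMaximal (Ideal.comap_isPrime _ _) hne
  -- Nakayama
  set M := multModule L with hM
  have hfg : (⊤ : Submodule R M).FG := by
    haveI : Module.Finite ℤ L := by
      rw [Module.Finite.iff_addGroup_fg]
      exact (AddGroup.fg_iff_addSubgroup_fg L).mpr hL
    have : Module.Finite ℤ M := ‹Module.Finite ℤ L›
    haveI : Module.Finite R M := Module.Finite.of_restrictScalars_finite ℤ R M
    exact Module.Finite.fg_top
  have hnak : ¬ ((⊤ : Submodule R M) ≤ m • ⊤) := by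
    intro hle
    obtain ⟨r, hr1, hr0⟩ := Submodule.exists_sub_one_mem_and_smul_eq_zero_of_fg_of_le_smul m
      (⊤ : Submodule R M) hfg hle
    obtain ⟨x₀, hx₀, hx₀0⟩ : ∃ x ∈ L, x ≠ 0 := by
      by_contra hcon
      push_neg at hcon
      exact hL0 ((AddSubgroup.eq_bot_iff_forall L).mpr hcon)
    have h2 := hr0 ⟨x₀, hx₀⟩ trivial
    have h3 : (r : ℂ) * x₀ = 0 := by
      have := congrArg Subtype.val h2
      simpa using this
    have h4 : (r : ℂ) = 0 := by
      rcases mul_eq_zero.mp h3 with h | h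
      · exact h
      · exact absurd h hx₀0
    have h5 : r = 0 := Subtype.ext h4
    rw [h5, zero_sub, hm, RingHom.mem_ker, map_neg, map_one, neg_eq_zero] at hr1
    exact one_ne_zero hr1
  obtain ⟨v, -, hv⟩ := SetLike.not_le_iff_exists.mp hnak
  -- a functional on the quotient
  letI : Field (R ⧸ m) := Ideal.Quotient.field m
  set Q := M ⧸ (m • ⊤ : Submodule R M) with hQ
  have hv0 : (Submodule.Quotient.mk v : Q) ≠ 0 := by
    rw [Ne, Submodule.Quotient.mk_eq_zero]
    exact hv
  obtain ⟨φ, hφ⟩ : ∃ φ : Module.Dual (R ⧸ m) Q, φ (Submodule.Quotient.mk v) ≠ 0 := by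
    by_contra hcon
    push_neg at hcon
    exact hv0 ((Module.forall_dual_apply_eq_zero_iff (R ⧸ m) _).mp hcon)
  let ψbar : (R ⧸ m) →+* F := RingHom.kerLift ψ'
  have hψbar : Function.Injective ψbar := RingHom.kerLift_injective ψ'
  let toM : L →+ M :=
    { toFun := fun x => ⟨x.1, x.2⟩
      map_zero' := rfl
      map_add' := fun _ _ => rfl }
  let μ : L →+ F :=
    ((ψbar : (R ⧸ m) →+ F).comp (φ : Q →+ (R ⧸ m))).comp
      (((Submodule.mkQ (m • ⊤ : Submodule R M)) : M →+ Q).comp toM)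
  refine ⟨μ, ?_, ?_⟩
  · intro h0
    have h1 : μ ⟨v.1, v.2⟩ = 0 := by rw [h0]; rfl
    have h2 : ψbar (φ (Submodule.Quotient.mk v)) = 0 := h1
    rw [← map_zero ψbar] at h2
    exact hφ (hψbar h2)
  · intro a ha x
    let a' : R := ⟨(a : ℂ), ha⟩
    have h1 : (toM ⟨(a : ℂ) * (x : ℂ), ha x x.2⟩ : M) = a' • toM x := rfl
    show ψbar (φ (Submodule.Quotient.mk (toM ⟨(a : ℂ) * (x : ℂ), ha x x.2⟩))) =
      ψ a * ψbar (φ (Submodule.Quotient.mk (toM x)))
    rw [h1, Submodule.Quotient.mk_smul]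
    have h2 : (a' • (Submodule.Quotient.mk (toM x) : Q))
        = (Ideal.Quotient.mk m a') • (Submodule.Quotient.mk (toM x) : Q) := rfl
    rw [h2, map_smul, smul_eq_mul, map_mul]
    congr 1

end Fermat.Agent.S29.H201
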