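import Fermat.Agent.S29.H201.PeriodHecke
import Fermat.Agent.S29.H201.Eigen
import Fermat.Agent.S29.H201.Lattice
import Fermat.Agent.S21.H381.Parabolic
import Fermat.Agent.S21.H81.Inj

/-!
# S29 / P5-E2 (helper201) — the eigensystem of a normalized eigenform occurs in
`Hom_par(Γ₀(N), F)`, `F` any field of characteristic `q > 0`.
-/

set_option autoImplicit false

open CongruenceSubgroup Matrix.SpecialLinearGroup UpperHalfPlane ModularCurve ModularCurve.Period
open scoped MatrixGroups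

namespace Fermat.Agent.S29.H201

variable {N : ℕ}

/-- The period map is injective (from helper81's injectivity of `periodHomPair`). -/
theorem periodMap_ne_zero [NeZero N] {g : CuspForm (Gamma0 N) 2} (hg : g ≠ 0) :
    periodMap N g ≠ 0 := by
  intro h
  have hinj := Fermat.Agent.S21.H81.injective_periodHomPair_of N
    (Fermat.Agent.S21.H381.existsPeriodMapLinear N)
    (fun f => Fermat.Agent.S21.H381.exists_hasEquivariantPrimitive f)
  have h0 : periodMap N (0 : CuspForm (Gamma0 N) 2) = 0 :=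
    (Fermat.Agent.S21.H381.periodMapLin N).map_zero
  have h1 : periodHomPair N (g, 0) = 0 := by
    rw [Fermat.Agent.S21.H381.periodHomPair_apply, h, h0]
    simp
  have h2 := hinj (h1.trans (map_zero (periodHomPair N)).symm)
  exact hg (congrArg Prod.fst h2)

theorem isNormalizedEigenform_ne_zero {g : CuspForm (Gamma0 N) 2}
    (hg : g.IsNormalizedEigenform) : g ≠ 0 := by
  rintro rfl
  have h1 := hg.qCoeff_one
  have h0 : ModularFormClass.qCoeff (⇑(0 : CuspForm (Gamma0 N) 2)) 1 = 0 := by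
    unfold ModularFormClass.qCoeff
    rw [FunLike.coe_zero, qExpansion_zero]
    simp
  rw [h0] at h1
  exact zero_ne_one h1

instance instFGSL2Z : Group.FG SL(2, ℤ) := by
  rw [Group.fg_iff]
  exact ⟨{ModularGroup.S, ModularGroup.T}, SpecialLinearGroup.SL2Z_generators, by simp⟩

theorem fg_Gamma0 [NeZero N] : AddGroup.FG (Additive (Gamma0 N)) := by
  haveI : Group.FG (Gamma0 N) := inferInstance
  exact AddGroup.fg_iff_mul_fg.mpr ‹_›

/-- **E2c, strong form**: for a normalized eigenform `g` of level `N ≥ 1`, a field `F` of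
characteristic `q > 0` and a ring hom `ψ : ℤ̄ → F`, there is a nonzero parabolic homomorphism
`χ : Γ₀(N) → F`, vanishing on every element on which the period of `g` vanishes (in particular
on all elements of finite order), with `T_ℓ χ = ψ(a_ℓ) χ` for every prime `ℓ ∤ N`. -/
theorem exists_eigen_parabolicHom_strong [NeZero N] {g : CuspForm (Gamma0 N) 2}
    (hg : g.IsNormalizedEigenform)
    {F : Type*} [Field F] (q : ℕ) [Fact q.Prime] [CharP F q]
    (ψ : integralClosure ℤ ℂ →+* F) :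
    ∃ χ : Additive (Gamma0 N) →+ F, χ ≠ 0 ∧ IsParabolicHom (Gamma0 N) χ ∧
      (∀ γ : Gamma0 N, periodMap N g (Additive.ofMul γ) = 0 → χ (Additive.ofMul γ) = 0) ∧
      (∀ γ : Gamma0 N, IsOfFinOrder γ → χ (Additive.ofMul γ) = 0) ∧
      ∀ (ℓ : ℕ) [Fact ℓ.Prime] (hℓN : ¬ ℓ ∣ N),
        ∃ a : integralClosure ℤ ℂ, (a : ℂ) = ModularFormClass.qCoeff g ℓ ∧
          heckeHom ℓ hℓN F χ = (AddMonoidHom.mulLeft (ψ a)).comp χ := by
  set v : Additive (Gamma0 N) →+ ℂ := periodMap N g with hv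
  have hv0 : v ≠ 0 := periodMap_ne_zero (isNormalizedEigenform_ne_zero hg)
  set L : AddSubgroup ℂ := v.range with hLdef
  have hLfg : L.FG := by
    haveI := fg_Gamma0 (N := N)
    rw [hLdef, ← AddGroup.fg_iff_addSubgroup_fg]
    exact AddGroup.fg_of_surjective (f := v.rangeRestrict) v.rangeRestrict_surjective
  have hL0 : L ≠ ⊥ := by
    intro h
    apply hv0
    refine AddMonoidHom.ext fun γ => ?_
    have : v γ ∈ L := ⟨γ, rfl⟩
    rw [h, AddSubgroup.mem_bot] at this
    simpa using this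
  -- the Hecke eigenvalue relation on periods
  have hT : ∀ (ℓ : ℕ) [Fact ℓ.Prime] (hℓN : ¬ ℓ ∣ N),
      heckeHom ℓ hℓN ℂ v = (AddMonoidHom.mulLeft (ModularFormClass.qCoeff g ℓ)).comp v := by
    intro ℓ _ hℓN
    have hℓ : ℓ.Prime := Fact.out
    rw [hv, ← periodMap_heckeTLin hℓ hℓN g, heckeTLin_eq_smul_of_isNormalizedEigenform hg hℓ hℓN,
      Fermat.Agent.S21.H381.periodMap_smul]
    refine AddMonoidHom.ext fun γ => ?_
    rfl
  have hmult : ∀ (ℓ : ℕ) [Fact ℓ.Prime] (_hℓN : ¬ ℓ ∣ N), ∀ y ∈ L,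
      ModularFormClass.qCoeff g ℓ * y ∈ L := by
    intro ℓ _ hℓN y hy
    obtain ⟨γ, rfl⟩ := hy
    obtain ⟨γ, rfl⟩ : ∃ γ' : Gamma0 N, Additive.ofMul γ' = γ := ⟨Additive.toMul γ, rfl⟩
    have h1 := DFunLike.congr_fun (hT ℓ hℓN) (Additive.ofMul γ)
    rw [heckeHom_apply] at h1
    have h2 : ModularFormClass.qCoeff g ℓ * v (Additive.ofMul γ)
        = ∑ x : OnePoint (ZMod ℓ), v (Additive.ofMul (trf hℓN γ x)) := h1.symm
    rw [h2]
    exact L.sum_mem fun x _ => ⟨_, rfl⟩
  obtain ⟨μ, hμ0, hμ⟩ := exists_eigen_functional L hLfg hL0 q ψ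
  set vr : Additive (Gamma0 N) →+ L := v.rangeRestrict with hvr
  have hker : ∀ γ : Gamma0 N, v (Additive.ofMul γ) = 0 → (μ.comp vr) (Additive.ofMul γ) = 0 := by
    intro γ h2
    have h3 : vr (Additive.ofMul γ) = 0 := Subtype.ext h2
    rw [AddMonoidHom.comp_apply, h3, map_zero]
  refine ⟨μ.comp vr, ?_, ?_, hker, ?_, ?_⟩
  · intro h
    apply hμ0
    refine AddMonoidHom.ext fun y => ?_
    obtain ⟨γ, hγ⟩ := y.2
    have h1 := DFunLike.congr_fun h γ
    have h2 : vr γ = y := Subtype.ext hγ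
    rw [AddMonoidHom.comp_apply, h2] at h1
    simpa using h1
  · intro γ hγ
    have h1 := Fermat.Agent.S21.H381.periodMap_mem_parabolicHoms g
    rw [mem_parabolicHoms_iff] at h1
    exact hker γ (h1 γ hγ)
  · intro γ hγ
    apply hker
    obtain ⟨n, hn, hγn⟩ := hγ.exists_pow_eq_one
    have h1 : (n : ℂ) * v (Additive.ofMul γ) = 0 := by
      have h2 : v (Additive.ofMul (γ ^ n)) = n • v (Additive.ofMul γ) := by
        rw [ofMul_pow, map_nsmul]
      rw [hγn] at h2
      have h3 : v (Additive.ofMul (1 : Gamma0 N)) = 0 := by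
        rw [ofMul_one, map_zero]
      rw [h3, nsmul_eq_mul] at h2
      exact h2.symm
    rcases mul_eq_zero.mp h1 with h | h
    · exact absurd (by exact_mod_cast h) hn.ne'
    · exact h
  · intro ℓ _ hℓN
    have hint : IsIntegral ℤ (ModularFormClass.qCoeff g ℓ) :=
      isIntegral_of_mul_mem L hLfg hL0 _ (hmult ℓ hℓN)
    refine ⟨⟨ModularFormClass.qCoeff g ℓ, hint⟩, rfl, ?_⟩
    rw [heckeHom_comp]
    refine AddMonoidHom.ext fun γ => ?_
    obtain ⟨γ, rfl⟩ : ∃ γ' : Gamma0 N, Additive.ofMul γ' = γ := ⟨Additive.toMul γ, rfl⟩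
    have h1 : heckeHom ℓ hℓN L vr (Additive.ofMul γ)
        = ⟨ModularFormClass.qCoeff g ℓ * (vr (Additive.ofMul γ) : ℂ),
            hmult ℓ hℓN _ (vr (Additive.ofMul γ)).2⟩ := by
      apply Subtype.ext
      have h2 := DFunLike.congr_fun (heckeHom_comp hℓN L.subtype vr) (Additive.ofMul γ)
      have h3 : L.subtype.comp vr = v := AddMonoidHom.ext fun γ' => rfl
      rw [h3, hT ℓ hℓN] at h2
      exact h2.symm
    rw [AddMonoidHom.comp_apply, h1]
    exact hμ ⟨ModularFormClass.qCoeff g ℓ, hint⟩ (hmult ℓ hℓN) (vr (Additive.ofMul γ))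

/-- **E2c**: for a normalized eigenform `g` of level `N ≥ 1`, a field `F` of characteristic
`q > 0` and a ring hom `ψ : ℤ̄ → F`, there is a nonzero parabolic homomorphism
`χ : Γ₀(N) → F` with `T_ℓ χ = ψ(a_ℓ) χ` for every prime `ℓ ∤ N`. -/
theorem exists_eigen_parabolicHom [NeZero N] {g : CuspForm (Gamma0 N) 2}
    (hg : g.IsNormalizedEigenform)
    {F : Type*} [Field F] (q : ℕ) [Fact q.Prime] [CharP F q]
    (ψ : integralClosure ℤ ℂ →+* F) :
    ∃ χ : Additive (Gamma0 N) →+ F, χ ≠ 0 ∧ IsParabolicHom (Gamma0 N) χ ∧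
      ∀ (ℓ : ℕ) [Fact ℓ.Prime] (hℓN : ¬ ℓ ∣ N),
        ∃ a : integralClosure ℤ ℂ, (a : ℂ) = ModularFormClass.qCoeff g ℓ ∧
          heckeHom ℓ hℓN F χ = (AddMonoidHom.mulLeft (ψ a)).comp χ := by
  obtain ⟨χ, h1, h2, -, -, h3⟩ := exists_eigen_parabolicHom_strong hg q ψ
  exact ⟨χ, h1, h2, h3⟩

end Fermat.Agent.S29.H201
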