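import Fermat.Agent.S29.H201.PeCycle
import Fermat.Agent.S29.H92.HeckeImage

/-!
# S29 layer M, piece E2 in the EXACT layer-M shape (helper201)

`exists_eigen_peHom` = the statement `Fermat.Agent.S29.M.exists_eigen_peHom` of
`Fermat/Agent/S29/M/Skeleton.lean` (helper30).
-/

set_option autoImplicit false

open CongruenceSubgroup Matrix.SpecialLinearGroup ModularCurve ModularCurve.Period
open scoped MatrixGroups TensorProduct
open Fermat.Agent.S29.M (peHoms IsHeckeImage)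

namespace Fermat.Agent.S29.H201

variable {N : ℕ} {p : ℕ}

/-- `heckeHom` on `peHoms N p`, as a `ZMod p`-linear endomorphism. -/
noncomputable def hecPe (N p : ℕ) (ℓ : ℕ) [Fact ℓ.Prime] (hℓN : ¬ ℓ ∣ N) :
    Module.End (ZMod p) (peHoms N p) :=
  AddMonoidHom.toZModLinearMap p
    { toFun := fun χ => ⟨heckeHom ℓ hℓN (ZMod p) (χ : Additive (Gamma0 N) →+ ZMod p),
        heckeHom_mem_pe hℓN χ.2⟩
      map_zero' := Subtype.ext (map_zero (heckeHom ℓ hℓN (ZMod p)))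
      map_add' := fun χ χ' => Subtype.ext (map_add (heckeHom ℓ hℓN (ZMod p)) _ _) }

theorem coe_hecPe (ℓ : ℕ) [Fact ℓ.Prime] (hℓN : ¬ ℓ ∣ N) (χ : peHoms N p) :
    ((hecPe N p ℓ hℓN χ : peHoms N p) : Additive (Gamma0 N) →+ ZMod p)
      = heckeHom ℓ hℓN (ZMod p) (χ : Additive (Gamma0 N) →+ ZMod p) := rfl

open Classical in
/-- The family `T ℓ` (junk value `0` unless `ℓ` is a prime not dividing `N`). -/
noncomputable def hecPeFam (N p : ℕ) (ℓ : ℕ) : Module.End (ZMod p) (peHoms N p) :=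
  if h : ℓ.Prime ∧ ¬ ℓ ∣ N then
    haveI : Fact ℓ.Prime := ⟨h.1⟩
    hecPe N p ℓ h.2
  else 0

theorem hecPeFam_eq (ℓ : ℕ) [Fact ℓ.Prime] (hℓN : ¬ ℓ ∣ N) :
    hecPeFam N p ℓ = hecPe N p ℓ hℓN := by
  unfold hecPeFam
  rw [dif_pos ⟨Fact.out, hℓN⟩]

theorem evalT_baseChange_hecPe {F : Type} [Field F] [Algebra (ZMod p) F]
    (ℓ : ℕ) [Fact ℓ.Prime] (hℓN : ¬ ℓ ∣ N) (γ : Gamma0 N) (c : F ⊗[ZMod p] (peHoms N p)) :
    evalT N p F γ ((hecPe N p ℓ hℓN).baseChange F c)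
      = ∑ x : OnePoint (ZMod ℓ), evalT N p F (trf hℓN γ x) c := by
  induction c using TensorProduct.induction_on with
  | zero => simp
  | tmul f χ =>
    rw [LinearMap.baseChange_tmul, evalT_tmul, coe_hecPe, heckeHom_apply, map_sum, Finset.mul_sum]
    refine Finset.sum_congr rfl fun x _ => ?_
    rw [evalT_tmul]
  | add c c' hc hc' =>
    simp only [map_add, hc, hc', Finset.sum_add_distrib]

/-- **Layer M, piece E2** (exact statement of `M/Skeleton.lean`). -/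
theorem exists_eigen_peHom {N : ℕ} [NeZero N]
    {g : CuspForm (Gamma0 N) 2} (hg : g.IsNormalizedEigenform)
    {p : ℕ} (hp : p.Prime) {F : Type} [Field F] [IsAlgClosed F] [CharP F p] [Algebra (ZMod p) F]
    (ψ : integralClosure ℤ ℂ →+* F) (a : ℕ → integralClosure ℤ ℂ)
    (ha : ∀ ℓ : ℕ, ℓ.Prime → ¬ ℓ ∣ N →
      ((a ℓ : integralClosure ℤ ℂ) : ℂ) = ModularFormClass.qCoeff g ℓ) :
    ∃ T : ℕ → Module.End (ZMod p) (peHoms N p),
      (∀ ℓ : ℕ, ℓ.Prime → ¬ ℓ ∣ N * p → ∀ χ : peHoms N p,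
        IsHeckeImage N ℓ (χ : Additive (Gamma0 N) →+ ZMod p)
          ((T ℓ χ : peHoms N p) : Additive (Gamma0 N) →+ ZMod p)) ∧
      ∃ c : F ⊗[ZMod p] (peHoms N p), c ≠ 0 ∧
        ∀ ℓ : ℕ, ℓ.Prime → ¬ ℓ ∣ N * p → (T ℓ).baseChange F c = ψ (a ℓ) • c := by
  haveI : Fact p.Prime := ⟨hp⟩
  have hN : ∀ ℓ : ℕ, ¬ ℓ ∣ N * p → ¬ ℓ ∣ N := fun ℓ h h' => h (Dvd.dvd.mul_right h' p)
  refine ⟨hecPeFam N p, ?_, ?_⟩
  · intro ℓ hℓ hℓNp χ
    haveI : Fact ℓ.Prime := ⟨hℓ⟩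
    rw [hecPeFam_eq ℓ (hN ℓ hℓNp), coe_hecPe]
    exact Fermat.Agent.S29.H92.isHeckeImage_heckeHom (hN ℓ hℓNp) _
  · obtain ⟨χ, hχ0, hχpar, -, hχfin, hχT⟩ := exists_eigen_parabolicHom_strong hg p ψ
    obtain ⟨c, hc⟩ := exists_tensor_of_hom (p := p) χ ⟨hχpar, hχfin⟩
    refine ⟨c, ?_, ?_⟩
    · rintro rfl
      apply hχ0
      refine AddMonoidHom.ext fun γ => ?_
      obtain ⟨γ, rfl⟩ : ∃ γ' : Gamma0 N, Additive.ofMul γ' = γ := ⟨Additive.toMul γ, rfl⟩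
      rw [← hc γ, map_zero]
      rfl
    · intro ℓ hℓ hℓNp
      haveI : Fact ℓ.Prime := ⟨hℓ⟩
      have hℓN := hN ℓ hℓNp
      rw [hecPeFam_eq ℓ hℓN, ← sub_eq_zero]
      apply eq_zero_of_evalT_eq_zero
      intro γ
      obtain ⟨a', ha', hT⟩ := hχT ℓ hℓN
      have haa : a' = a ℓ := Subtype.ext (ha'.trans (ha ℓ hℓ hℓN).symm)
      rw [map_sub, evalT_baseChange_hecPe, map_smul, smul_eq_mul, hc γ,
        Finset.sum_congr rfl fun x _ => hc (trf hℓN γ x), ← heckeHom_apply, hT, haa]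
      simp
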