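import Fermat.Agent.S29.H201.E2
import Fermat.Agent.S29.M.Defs

/-!
# S29 layer M, piece E2 (helper201): `F ⊗ peHoms` versus `F`-valued homomorphisms

* `evalT γ : F ⊗[ZMod p] peHoms N p →ₗ[F] F` — evaluation at `γ`;
* `eq_zero_of_evalT_eq_zero` — an element of `F ⊗ peHoms` is determined by its evaluations;
* `exists_tensor_of_hom` — every `F`-valued "pe" homomorphism comes from `F ⊗ peHoms`.
-/

set_option autoImplicit false

open CongruenceSubgroup Matrix.SpecialLinearGroup ModularCurve ModularCurve.Period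
open scoped MatrixGroups TensorProduct
open Fermat.Agent.S29.M (peHoms)

namespace Fermat.Agent.S29.H201

variable {N : ℕ} {p : ℕ} {F : Type} [Field F] [Algebra (ZMod p) F]

/-- "pe": vanishing on parabolic elements (`tr² = 4`) and on elements of finite order. -/
def IsPe {A : Type*} [AddCommGroup A] (χ : Additive (Gamma0 N) →+ A) : Prop :=
  (∀ γ : Gamma0 N,
      ((γ : SL(2, ℤ)) : Matrix (Fin 2) (Fin 2) ℤ).trace ^ 2 = 4 → χ (Additive.ofMul γ) = 0) ∧
    (∀ γ : Gamma0 N, IsOfFinOrder γ → χ (Additive.ofMul γ) = 0)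

theorem isPe_of_mem_peHoms (χ : peHoms N p) : IsPe (χ : Additive (Gamma0 N) →+ ZMod p) := χ.2

/-- evaluation at `γ`, as a `ZMod p`-linear map `peHoms → F`. -/
noncomputable def evalPe (N p : ℕ) (F : Type) [Field F] [Algebra (ZMod p) F] (γ : Gamma0 N) :
    peHoms N p →ₗ[ZMod p] F where
  toFun χ := algebraMap (ZMod p) F ((χ : Additive (Gamma0 N) →+ ZMod p) (Additive.ofMul γ))
  map_add' χ χ' := by
    show algebraMap (ZMod p) F (_ + _) = _
    rw [map_add]
  map_smul' c χ := by
    show algebraMap (ZMod p) F (c • _) = _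
    rw [smul_eq_mul, map_mul, Algebra.smul_def]
    rfl

/-- evaluation at `γ` on `F ⊗ peHoms`. -/
noncomputable def evalT (N p : ℕ) (F : Type) [Field F] [Algebra (ZMod p) F] (γ : Gamma0 N) :
    F ⊗[ZMod p] (peHoms N p) →ₗ[F] F :=
  LinearMap.liftBaseChange F (evalPe N p F γ)

theorem evalT_tmul (γ : Gamma0 N) (f : F) (χ : peHoms N p) :
    evalT N p F γ (f ⊗ₜ χ)
      = f * algebraMap (ZMod p) F ((χ : Additive (Gamma0 N) →+ ZMod p) (Additive.ofMul γ)) := by
  rw [evalT, LinearMap.liftBaseChange_tmul, smul_eq_mul]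
  rfl

/-- An element of `F ⊗ peHoms` is determined by its evaluations. -/
theorem eq_zero_of_evalT_eq_zero [Fact p.Prime] (c : F ⊗[ZMod p] (peHoms N p))
    (h : ∀ γ : Gamma0 N, evalT N p F γ c = 0) : c = 0 := by
  classical
  set ℬ := Module.Free.chooseBasis (ZMod p) F with hℬ
  obtain ⟨w, rfl⟩ := TensorProduct.eq_repr_basis_left ℬ c
  have hw : ∀ i ∈ w.support, w i = 0 := by
    intro i hi
    apply Subtype.ext
    refine AddMonoidHom.ext fun γ => ?_
    obtain ⟨γ, rfl⟩ : ∃ γ' : Gamma0 N, Additive.ofMul γ' = γ := ⟨Additive.toMul γ, rfl⟩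
    have h1 := h γ
    rw [Finsupp.sum, map_sum] at h1
    have h2 : ∑ j ∈ w.support,
        ((w j : Additive (Gamma0 N) →+ ZMod p) (Additive.ofMul γ)) • ℬ j = 0 := by
      rw [← h1]
      refine Finset.sum_congr rfl fun j _ => ?_
      rw [evalT_tmul, Algebra.smul_def, mul_comm]
    have h3 := linearIndependent_iff'.mp ℬ.linearIndependent w.support
      (fun j => (w j : Additive (Gamma0 N) →+ ZMod p) (Additive.ofMul γ)) h2 i hi
    exact h3
  rw [Finsupp.sum]
  refine Finset.sum_eq_zero fun i hi => ?_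
  rw [hw i hi, TensorProduct.tmul_zero]

/-- Every `F`-valued "pe" homomorphism of the finitely generated group `Γ₀(N)` comes from
`F ⊗ peHoms`. -/
theorem exists_tensor_of_hom [Fact p.Prime] [NeZero N] (χ : Additive (Gamma0 N) →+ F)
    (hχ : IsPe χ) :
    ∃ c : F ⊗[ZMod p] (peHoms N p),
      ∀ γ : Gamma0 N, evalT N p F γ c = χ (Additive.ofMul γ) := by
  classical
  obtain ⟨S, hS⟩ := (fg_Gamma0 (N := N)).out
  set E : Submodule (ZMod p) F := Submodule.span (ZMod p) (χ '' (S : Set (Additive (Gamma0 N))))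
    with hE
  have hfg : E.FG := Submodule.fg_span ((Finset.finite_toSet S).image χ)
  haveI : Module.Finite (ZMod p) E := Module.Finite.iff_fg.mpr hfg
  have hmem : ∀ γ : Additive (Gamma0 N), χ γ ∈ E := by
    intro γ
    have hγ : γ ∈ AddSubgroup.closure (S : Set (Additive (Gamma0 N))) := by
      rw [hS]; trivial
    induction hγ using AddSubgroup.closure_induction with
    | mem x hx => exact Submodule.subset_span ⟨x, hx, rfl⟩
    | zero => rw [map_zero]; exact E.zero_mem
    | add x y _ _ hx hy => rw [map_add]; exact E.add_mem hx hy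
    | neg x _ hx => rw [map_neg]; exact E.neg_mem hx
  let χE : Additive (Gamma0 N) →+ E := χ.codRestrict E hmem
  set b := Module.finBasis (ZMod p) E with hb
  let coord : Fin (Module.finrank (ZMod p) E) → (Additive (Gamma0 N) →+ ZMod p) := fun i =>
    (((Finsupp.lapply i : (Fin (Module.finrank (ZMod p) E) →₀ ZMod p) →ₗ[ZMod p] ZMod p).comp
      b.repr.toLinearMap).toAddMonoidHom).comp χE
  have hcoord : ∀ i γ, coord i γ = b.repr (χE γ) i := fun i γ => rfl
  have hzero : ∀ γ : Additive (Gamma0 N), χ γ = 0 → ∀ i, coord i γ = 0 := by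
    intro γ h0 i
    have h1 : χE γ = 0 := Subtype.ext h0
    rw [hcoord, h1, map_zero]
    rfl
  have hpe : ∀ i, coord i ∈ peHoms N p := fun i =>
    ⟨fun γ hγ => hzero _ (hχ.1 γ hγ) i, fun γ hγ => hzero _ (hχ.2 γ hγ) i⟩
  refine ⟨∑ i, ((b i : E) : F) ⊗ₜ[ZMod p] (⟨coord i, hpe i⟩ : peHoms N p), fun γ => ?_⟩
  rw [map_sum]
  have h1 : ∀ i, evalT N p F γ (((b i : E) : F) ⊗ₜ[ZMod p] (⟨coord i, hpe i⟩ : peHoms N p))
      = (((b.repr (χE (Additive.ofMul γ)) i) • b i : E) : F) := by
    intro i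
    rw [evalT_tmul, Submodule.coe_smul, Algebra.smul_def, mul_comm]
    rfl
  rw [Finset.sum_congr rfl fun i _ => h1 i, ← Submodule.coe_sum, b.sum_repr]
  rfl

end Fermat.Agent.S29.H201
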